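import Fermat.Agent.S27.H443.FFChart
import Fermat.Prelude.Def_AlgebraicCurve_IsCurveOver

/-!
# Row S27, leaf FF-ALG: a function field of a curve has a curve chart

`ffalg_of_isCurveOver`: for `IsCurveOver K F`, `K` algebraically closed, `F / K` essentially of
finite type, there is a curve chart (row S25, `IsCurveChart`) made of subrings of `F`, with
field of fractions `F`.  No assumption on the characteristic.

Author: helper443.
-/

set_option autoImplicit false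

universe u

namespace Fermat.Agent.S27.H443

open Fermat.Agent.S25 AlgebraicCurve

/-- **FF-ALG.** -/
theorem ffalg_of_isCurveOver (K F : Type u) [Field K] [Field F] [Algebra K F] [IsAlgClosed K]
    [IsCurveOver K F] [Algebra.EssFiniteType K F] :
    ∃ (B₀ B₁ B₀₁ : Type u) (_ : CommRing B₀) (_ : CommRing B₁) (_ : CommRing B₀₁)
      (_ : Algebra K B₀) (_ : Algebra K B₁) (_ : Algebra K B₀₁) (_ : Algebra B₀ B₀₁)
      (_ : Algebra B₁ B₀₁) (_ : IsScalarTower K B₀ B₀₁) (_ : IsScalarTower K B₁ B₀₁)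
      (x : B₀) (y : B₁) (e : B₁ →ₐ[K] K) (j₀ : B₀ →ₐ[K] F) (j₁ : B₁ →ₐ[K] F)
      (j₀₁ : B₀₁ →ₐ[K] F),
      IsCurveChart K B₀ B₁ B₀₁ x y e ∧
      (∀ b : B₀, j₀₁ (algebraMap B₀ B₀₁ b) = j₀ b) ∧
      (∀ b : B₁, j₀₁ (algebraMap B₁ B₀₁ b) = j₁ b) ∧
      Function.Injective j₀ ∧ Function.Injective j₁ ∧ Function.Injective j₀₁ ∧
      (∀ f : F, ∃ a b : B₀, b ≠ 0 ∧ f * j₀ b = j₀ a) ∧
      (∀ f : F, ∃ a b : B₁, b ≠ 0 ∧ f * j₁ b = j₁ a) :=
  ffalg_exists_chart K F IsCurveOver.finrank_kaehler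

end Fermat.Agent.S27.H443
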