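import Fermat.Agent.S27.Spec
import Fermat.Agent.S27.H443.FFAlg

/-!
# Row S27, leaf FF-ALG: hand-in in the exact form of `Stmt.FFAlg`

`ffAlg K F : Stmt.FFAlg K F` (the frozen leaf of `Fermat/Agent/S27/Spec.lean`).
The characteristic zero hypothesis of the leaf is not used.

Author: helper443.
-/

set_option autoImplicit false

universe u

namespace Fermat.Agent.S27.H443

open Fermat.Agent.S25 AlgebraicCurve

/-- **FF-ALG** (leaf of row S27): a function field of a curve has a curve chart. -/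
theorem ffAlg (K F : Type u) [Field K] [Field F] [Algebra K F] : Stmt.FFAlg K F := by
  intro _ _ _ _
  obtain ⟨B₀, B₁, B₀₁, _, _, _, _, _, _, _, _, _, _, x, y, e, j₀, j₁, j₀₁, hchart, h₀, h₁,
    hj₀, -, hj₀₁, hfrac, -⟩ := ffalg_of_isCurveOver K F
  refine ⟨{ B₀ := B₀, B₁ := B₁, B₀₁ := B₀₁, x := x, y := y, e := e, isCurveChart := hchart,
            j₀ := j₀, j₁ := j₁, j₀₁ := j₀₁, j₀₁_algebraMap₀ := h₀, j₀₁_algebraMap₁ := h₁,
            isFracMap := ⟨hj₀₁, fun f => ?_⟩ }⟩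
  obtain ⟨a, b, hb, hab⟩ := hfrac f
  refine ⟨algebraMap B₀ B₀₁ a, algebraMap B₀ B₀₁ b, ?_, ?_⟩
  · rw [h₀]
    intro h0
    exact hb (hj₀ (by rw [h0, map_zero]))
  · rw [h₀, h₀]
    exact hab

end Fermat.Agent.S27.H443
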