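import Mathlib

/-!
# Row S27 / S26-C4b, leaf DS: Dedekind domains of finite type over an algebraically closed field
are smooth curves

Mathlib only, no characteristic assumption.  For a Dedekind domain `B` of finite type over an
algebraically closed field `K`:

* `ds_exists_isStandardSmooth_away`: around every nonzero maximal ideal there is a basic open
  `B[1/f]` which is standard smooth of relative dimension one over `K`
  (a uniformiser `t` makes `B_m` unramified and flat, hence etale, over `K[t]`);
* `ds_locally_isStandardSmooth`: if `B` is not a field, `K → B` is locally standard smooth of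
  relative dimension one (this is leaf T2 of `S26/H27/C4bSpec`);
* `ds_smooth`: `B` is a smooth `K`-algebra (also when `B` is a field).

Author: helper443.
-/

set_option autoImplicit false
set_option linter.style.haveILetI false
universe u

open Polynomial IsLocalRing

namespace Fermat.Agent.S27.H443

section Residue

variable (K : Type*) [Field K] [IsAlgClosed K] {B : Type*} [CommRing B] [Algebra K B]
  [Algebra.FiniteType K B]

/-- Nullstellensatz: the residue field at a maximal ideal of a finitely generated algebra over an
algebraically closed field is the base field. -/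
theorem ds_algebraMap_quotient_bijective (m : Ideal B) [hm : m.IsMaximal] :
    Function.Bijective (algebraMap K (B ⧸ m)) := by
  letI : Field (B ⧸ m) := Ideal.Quotient.field m
  haveI : Algebra.FiniteType K (B ⧸ m) :=
    Algebra.FiniteType.of_surjective (Ideal.Quotient.mkₐ K m) (Ideal.Quotient.mkₐ_surjective K m)
  haveI : Module.Finite K (B ⧸ m) := finite_of_finite_type_of_isJacobsonRing K (B ⧸ m)
  exact IsAlgClosed.algebraMap_bijective_of_isIntegral

/-- Every element of `B` is congruent to a constant modulo a maximal ideal. -/
theorem ds_exists_sub_mem (m : Ideal B) [hm : m.IsMaximal] (b : B) :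
    ∃ c : K, b - algebraMap K B c ∈ m := by
  obtain ⟨c, hc⟩ := (ds_algebraMap_quotient_bijective K m).2 (Ideal.Quotient.mk m b)
  refine ⟨c, ?_⟩
  rw [← Ideal.Quotient.eq_zero_iff_mem, map_sub, ← hc,
    IsScalarTower.algebraMap_apply K B (B ⧸ m), Ideal.Quotient.algebraMap_eq, sub_self]

/-- Every element of the localisation at a maximal ideal is congruent to a constant modulo the
maximal ideal. -/
theorem ds_exists_sub_mem_maximalIdeal (m : Ideal B) [hm : m.IsMaximal]
    (s : Localization.AtPrime m) :
    ∃ c : K, s - algebraMap K (Localization.AtPrime m) c ∈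
      maximalIdeal (Localization.AtPrime m) := by
  obtain ⟨b, hb⟩ := (IsLocalization.AtPrime.equivQuotMaximalIdeal m
    (Localization.AtPrime m)).surjective (Ideal.Quotient.mk _ s)
  obtain ⟨b, rfl⟩ := Ideal.Quotient.mk_surjective b
  rw [IsLocalization.AtPrime.equivQuotMaximalIdeal_apply_mk, Ideal.Quotient.eq] at hb
  obtain ⟨c, hc⟩ := ds_exists_sub_mem K m b
  refine ⟨c, ?_⟩
  have h1 : algebraMap B (Localization.AtPrime m) (b - algebraMap K B c) ∈
      maximalIdeal (Localization.AtPrime m) :=
    (IsLocalization.AtPrime.to_map_mem_maximal_iff (Localization.AtPrime m) m _).mpr hc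
  rw [map_sub, ← IsScalarTower.algebraMap_apply] at h1
  have h2 := Ideal.sub_mem _ h1 hb
  have h3 : s - algebraMap K (Localization.AtPrime m) c =
      algebraMap B (Localization.AtPrime m) b - algebraMap K (Localization.AtPrime m) c -
        (algebraMap B (Localization.AtPrime m) b - s) := by ring
  rw [h3]
  exact h2

end Residue

section Unramified

/-- If the maximal ideal of `B_m` is generated by the image of an element of `P`, then `B_m` is
formally unramified over `P` (the residue field being the algebraically closed base field). -/
theorem ds_formallyUnramified_localization (K : Type*) [Field K] [IsAlgClosed K] (P : Type*)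
    [CommRing P] [Algebra K P] {B : Type*} [CommRing B] [Algebra K B] [Algebra P B]
    [IsScalarTower K P B] [Algebra.FiniteType K B] (m : Ideal B) [hm : m.IsMaximal] (x : P)
    (hx : maximalIdeal (Localization.AtPrime m) =
      Ideal.span {algebraMap B (Localization.AtPrime m) (algebraMap P B x)}) :
    Algebra.FormallyUnramified P (Localization.AtPrime m) := by
  have hft : Algebra.FiniteType P B := Algebra.FiniteType.of_restrictScalars_finiteType K P B
  have hfin : Module.Finite (Localization.AtPrime m) Ω[Localization.AtPrime m⁄P] :=
    inferInstance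
  rw [Algebra.formallyUnramified_iff]
  set S := Localization.AtPrime m with hS
  have hD : ∀ s : S, KaehlerDifferential.D P S s ∈ maximalIdeal S • (⊤ : Submodule S Ω[S⁄P]) := by
    intro s
    obtain ⟨c, hc⟩ := ds_exists_sub_mem_maximalIdeal K m s
    rw [hx, Ideal.mem_span_singleton'] at hc
    obtain ⟨a, ha⟩ := hc
    have hs : s = a * algebraMap P S x + algebraMap P S (algebraMap K P c) := by
      rw [← IsScalarTower.algebraMap_apply K P S, IsScalarTower.algebraMap_apply P B S, ha]
      ring
    rw [hs, map_add, Derivation.map_algebraMap, add_zero, Derivation.leibniz,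
      Derivation.map_algebraMap, smul_zero, zero_add]
    refine Submodule.smul_mem_smul ?_ Submodule.mem_top
    rw [hx, IsScalarTower.algebraMap_apply P B S]
    exact Ideal.mem_span_singleton_self _
  have hle : (⊤ : Submodule S Ω[S⁄P]) ≤ maximalIdeal S • ⊤ := by
    conv_lhs => rw [← KaehlerDifferential.span_range_derivation]
    rw [Submodule.span_le]
    rintro _ ⟨s, rfl⟩
    exact hD s
  have hbot : (⊤ : Submodule S Ω[S⁄P]) = ⊥ :=
    Submodule.eq_bot_of_le_smul_of_le_jacobson_bot (maximalIdeal S) ⊤
      (Module.finite_def.mp hfin) hle
      (by rw [jacobson_eq_maximalIdeal ⊥ bot_ne_top])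
  exact (Submodule.subsingleton_iff S).mp (subsingleton_of_bot_eq_top hbot.symm)

end Unramified
/-- The presentation of `MvPolynomial ι R` with generators the variables and no relations. -/
noncomputable def mvPolyPresentation (R : Type*) [CommRing R] (ι : Type*) :
    Algebra.Presentation R (MvPolynomial ι R) ι PEmpty.{1} where
  __ := Algebra.Generators.mvPolynomial R ι
  relation := PEmpty.elim
  span_range_relation_eq_ker := by
    simp only [Set.range_eq_empty, Ideal.span_empty]
    symm
    rw [Algebra.Generators.ker_eq_ker_aeval_val, ← RingHom.injective_iff_ker_eq_bot]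
    intro a b hab
    simpa using hab

/-- The submersive presentation of `MvPolynomial ι R` with no relations. -/
noncomputable def mvPolySubmersive (R : Type*) [CommRing R] (ι : Type*) :
    Algebra.SubmersivePresentation R (MvPolynomial ι R) ι PEmpty.{1} where
  __ := mvPolyPresentation R ι
  map := PEmpty.elim
  map_inj (a b : PEmpty) h := by contradiction
  jacobian_isUnit := by
    classical
    rw [Algebra.PreSubmersivePresentation.jacobian_eq_jacobiMatrix_det, Matrix.det_isEmpty,
      map_one]
    exact isUnit_one

theorem mvPoly_isStandardSmoothOfRelativeDimension (R : Type*) [CommRing R] (ι : Type*)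
    [Finite ι] :
    Algebra.IsStandardSmoothOfRelativeDimension (Nat.card ι) R (MvPolynomial ι R) :=
  (mvPolySubmersive R ι).isStandardSmoothOfRelativeDimension (by
    simp [Algebra.Presentation.dimension])

theorem polynomial_isStandardSmoothOfRelativeDimension (R : Type*) [CommRing R] :
    Algebra.IsStandardSmoothOfRelativeDimension 1 R R[X] := by
  have h := mvPoly_isStandardSmoothOfRelativeDimension R Unit
  rw [Nat.card_unique] at h
  exact Algebra.IsStandardSmoothOfRelativeDimension.of_algEquiv 1
    (MvPolynomial.uniqueAlgEquiv R Unit)


section Main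

/-- A global uniformiser at a nonzero maximal ideal of a Dedekind domain. -/
theorem ds_exists_uniformizer {B : Type*} [CommRing B] [IsDedekindDomain B] (m : Ideal B)
    [hm : m.IsMaximal] (hm0 : m ≠ ⊥) :
    ∃ t ∈ m, maximalIdeal (Localization.AtPrime m) =
      Ideal.span {algebraMap B (Localization.AtPrime m) t} := by
  haveI : IsDiscreteValuationRing (Localization.AtPrime m) :=
    IsLocalization.AtPrime.isDiscreteValuationRing_of_dedekind_domain B hm0 _
  obtain ⟨ϖ, hϖ⟩ := IsDiscreteValuationRing.exists_irreducible (Localization.AtPrime m)
  obtain ⟨a, s, rfl⟩ := IsLocalization.exists_mk'_eq m.primeCompl ϖ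
  have hunit : IsUnit (algebraMap B (Localization.AtPrime m) (s : B)) :=
    IsLocalization.map_units _ s
  have hassoc : Associated (IsLocalization.mk' (Localization.AtPrime m) a s)
      (algebraMap B (Localization.AtPrime m) a) := by
    refine ⟨hunit.unit, ?_⟩
    rw [IsUnit.unit_spec, IsLocalization.mk'_spec]
  have hirr : Irreducible (algebraMap B (Localization.AtPrime m) a) := hassoc.irreducible hϖ
  refine ⟨a, ?_, hirr.maximalIdeal_eq⟩
  rw [← IsLocalization.AtPrime.to_map_mem_maximal_iff (Localization.AtPrime m) m a,
    hirr.maximalIdeal_eq]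
  exact Ideal.mem_span_singleton_self _


/-- An element of a proper ideal of a domain over an algebraically closed field which is algebraic
over the base field vanishes. -/
theorem ds_eq_zero_of_isAlgebraic (K : Type*) [Field K] [IsAlgClosed K] {B : Type*} [CommRing B]
    [IsDomain B] [Algebra K B] (m : Ideal B) (hm : m ≠ ⊤) {t : B} (ht : t ∈ m)
    (halg : IsAlgebraic K t) : t = 0 := by
  have hint : IsIntegral K t := halg.isIntegral
  have hdeg : (minpoly K t).degree = 1 :=
    IsAlgClosed.degree_eq_one_of_irreducible K (minpoly.irreducible hint)
  obtain ⟨c, rfl⟩ := minpoly.mem_range_of_degree_eq_one K t hdeg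
  by_contra h0
  have hc : c ≠ 0 := by
    rintro rfl
    exact h0 (map_zero _)
  apply hm
  rw [Ideal.eq_top_iff_one]
  have : (1 : B) = algebraMap K B c⁻¹ * algebraMap K B c := by
    rw [← map_mul, inv_mul_cancel₀ hc, map_one]
  rw [this]
  exact Ideal.mul_mem_left _ _ ht

/-- **Étale chart at a closed point.**  Around every nonzero maximal ideal of a Dedekind domain
of finite type over an algebraically closed field there is a basic open which is standard smooth
of relative dimension one. -/
theorem ds_exists_isStandardSmooth_away (K : Type*) [Field K] [IsAlgClosed K] {B : Type*}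
    [CommRing B] [Algebra K B] [Algebra.FiniteType K B] [IsDedekindDomain B]
    (m : Ideal B) [hm : m.IsMaximal] (hm0 : m ≠ ⊥) :
    ∃ f ∉ m, Algebra.IsStandardSmoothOfRelativeDimension 1 K (Localization.Away f) := by
  obtain ⟨t, htm, ht⟩ := ds_exists_uniformizer m hm0
  haveI hdvr : IsDiscreteValuationRing (Localization.AtPrime m) :=
    IsLocalization.AtPrime.isDiscreteValuationRing_of_dedekind_domain B hm0 _
  have htr : Transcendental K t := by
    intro halg
    have h0 := ds_eq_zero_of_isAlgebraic K m hm.ne_top htm halg
    rw [h0, map_zero, Ideal.span_singleton_eq_bot.mpr rfl] at ht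
    exact IsDiscreteValuationRing.not_a_field (Localization.AtPrime m) ht
  letI alg : Algebra K[X] B := (Polynomial.aeval (R := K) t).toRingHom.toAlgebra
  have hmap : ∀ p : K[X], algebraMap K[X] B p = Polynomial.aeval t p := fun _ => rfl
  haveI tower : IsScalarTower K K[X] B := IsScalarTower.of_algebraMap_eq fun c => by
    rw [hmap, Polynomial.algebraMap_eq, Polynomial.aeval_C]
  haveI htf : Module.IsTorsionFree K[X] B :=
    Module.isTorsionFree_iff_algebraMap_injective.mpr (transcendental_iff_injective.mp htr)
  haveI hflat : Module.Flat K[X] B := inferInstance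
  haveI hft : Algebra.FiniteType K[X] B := Algebra.FiniteType.of_restrictScalars_finiteType K K[X] B
  haveI hfp : Algebra.FinitePresentation K[X] B := Algebra.FinitePresentation.of_finiteType.mp hft
  haveI hunr : Algebra.IsUnramifiedAt K[X] m :=
    ds_formallyUnramified_localization K K[X] m Polynomial.X (by
      rw [hmap, Polynomial.aeval_X]; exact ht)
  haveI het : Algebra.IsEtaleAt K[X] m := Algebra.IsEtaleAt.of_isUnramifiedAt_of_flat m
  obtain ⟨f, hfm, hf⟩ := Algebra.exists_etale_of_isEtaleAt (R := K[X]) m
  refine ⟨f, hfm, ?_⟩
  haveI h0 : Algebra.IsStandardSmoothOfRelativeDimension 0 K[X] (Localization.Away f) :=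
    Algebra.Etale.iff_isStandardSmoothOfRelativeDimension_zero.mp hf
  haveI h1 : Algebra.IsStandardSmoothOfRelativeDimension 1 K K[X] :=
    polynomial_isStandardSmoothOfRelativeDimension K
  have := Algebra.IsStandardSmoothOfRelativeDimension.trans 1 0 K K[X] (Localization.Away f)
  simpa using this

/-- A maximal ideal of a domain which is not a field is nonzero. -/
theorem ds_maximal_ne_bot {B : Type*} [CommRing B] [IsDomain B] (hB : ¬ IsField B)
    (m : Ideal B) [hm : m.IsMaximal] : m ≠ ⊥ := by
  rintro rfl
  exact hB (Ring.isField_iff_maximal_bot.mpr hm) 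

/-- **Leaf T2** (regular ⇒ smooth for curves): a Dedekind domain, not a field, of finite type
over an algebraically closed field is locally standard smooth of relative dimension one. -/
theorem ds_locally_isStandardSmooth (K : Type u) [Field K] [IsAlgClosed K]
    (B : Type u) [CommRing B] [Algebra K B] [Algebra.FiniteType K B] [IsDedekindDomain B]
    (hB : ¬ IsField B) :
    RingHom.Locally (RingHom.IsStandardSmoothOfRelativeDimension 1) (algebraMap K B) := by
  refine ⟨{f | Algebra.IsStandardSmoothOfRelativeDimension 1 K (Localization.Away f)}, ?_, ?_⟩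
  · by_contra hne
    obtain ⟨m, hm, hle⟩ := Ideal.exists_le_maximal _ hne
    obtain ⟨f, hfm, hf⟩ := ds_exists_isStandardSmooth_away K m (ds_maximal_ne_bot hB m)
    exact hfm (hle (Ideal.subset_span hf))
  · intro t ht
    rw [← IsScalarTower.algebraMap_eq, RingHom.isStandardSmoothOfRelativeDimension_algebraMap]
    exact ht

/-- A Dedekind domain of finite type over an algebraically closed field is smooth. -/
theorem ds_smooth (K : Type*) [Field K] [IsAlgClosed K]
    (B : Type*) [CommRing B] [Algebra K B] [Algebra.FiniteType K B] [IsDedekindDomain B] :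
    Algebra.Smooth K B := by
  haveI hfp : Algebra.FinitePresentation K B := Algebra.FinitePresentation.of_finiteType.mp ‹_›
  by_cases hB : IsField B
  · letI : Field B := hB.toField
    haveI : Algebra.FormallySmooth K B := inferInstance
    exact ⟨inferInstance, hfp⟩
  · refine ⟨Algebra.smoothLocus_eq_univ_iff.mp (Set.eq_univ_iff_forall.mpr fun p => ?_), hfp⟩
    obtain ⟨m, hm, hle⟩ := Ideal.exists_le_maximal p.asIdeal p.2.ne_top
    obtain ⟨f, hfm, hf⟩ := ds_exists_isStandardSmooth_away K m (ds_maximal_ne_bot hB m)
    haveI : Algebra.IsStandardSmooth K (Localization.Away f) :=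
      Algebra.IsStandardSmoothOfRelativeDimension.isStandardSmooth 1
    have hsm : Algebra.Smooth K (Localization.Away f) := inferInstance
    exact (Algebra.basicOpen_subset_smoothLocus_iff_smooth (R := K) (f := f)).mpr hsm
      (fun hfp' => hfm (hle hfp'))

end Main

end Fermat.Agent.S27.H443
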