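import Fermat.Agent.S27.H443.DS
import Fermat.Agent.S25.H207.Omega

/-!
# Row S27 / S26-C4b, leaf DS (continued): the differentials of a Dedekind curve are invertible

For a Dedekind domain `B`, not a field, of finite type over an algebraically closed field `K`,
the module `Ω[B⁄K]` is invertible.  Together with `ds_smooth` these are the fields `smooth₀/₁` and
`omega₀/₁` of `Fermat.Agent.S25.IsCurveChart`.

Author: helper443.
-/

set_option autoImplicit false
universe u

namespace Fermat.Agent.S27.H443

/-- The Kähler differentials of a Dedekind domain, not a field, of finite type over an
algebraically closed field form an invertible module. -/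
theorem ds_invertible_kaehlerDifferential (K : Type u) [Field K] [IsAlgClosed K]
    (B : Type u) [CommRing B] [Algebra K B] [Algebra.FiniteType K B] [IsDedekindDomain B]
    (hB : ¬ IsField B) : Module.Invertible B Ω[B⁄K] :=
  Fermat.Agent.S25.H207.invertible_kaehlerDifferential (ds_locally_isStandardSmooth K B hB)

end Fermat.Agent.S27.H443
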