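import Fermat.Agent.S27.H443.FFLoc
import Fermat.Agent.S27.H443.DSOmega
import Fermat.Agent.S25.DefsAlg

/-!
# Row S27, leaf FF-ALG: the curve chart of a function field

Let `F / K` be a field extension, essentially of finite type, with `K` algebraically closed and
`Ω[F⁄K]` of dimension one (e.g. `IsCurveOver K F`).  Choose `x ∈ F` with `dx ≠ 0` and put

* `B₀  = ffB K F {x}`       (integral closure of `K[x]` in `F`),
* `B₁  = ffB K F {x⁻¹}`     (integral closure of `K[x⁻¹]` in `F`),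
* `B₀₁ = ffB K F {x, x⁻¹}`  (integral closure of `K[x, x⁻¹]` in `F`).

Then `(B₀, B₁, B₀₁, x, x⁻¹, e)` is a curve chart in the sense of row S25 (`IsCurveChart`), for a
suitable `K`-point `e` of `B₁` with `e (x⁻¹) = 0`, and `F` is the field of fractions of `B₀`.
This is `ffalg_exists_chart`.  No assumption on the characteristic.

Author: helper443.
-/

set_option autoImplicit false
set_option linter.style.haveILetI false

universe u

open Polynomial

namespace Fermat.Agent.S27.H443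

section Point

variable {K F : Type*} [Field K] [Field F] [Algebra K F]

/-- The generator `u` of `K[u]` is not a unit, for transcendental `u`. -/
theorem adjoin_gen_not_isUnit {u : F} (h : Transcendental K u) :
    ¬ IsUnit (⟨u, Algebra.self_mem_adjoin_singleton K u⟩ : Algebra.adjoin K ({u} : Set F)) := by
  intro hunit
  have h1 : adjoinEquivPoly h X = ⟨u, Algebra.self_mem_adjoin_singleton K u⟩ := by
    apply Subtype.ext
    rw [adjoinEquivPoly_coe, Polynomial.aeval_X]
  rw [← h1] at hunit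
  have h2 : IsUnit (X : K[X]) := by
    have := hunit.map (adjoinEquivPoly h).symm
    simpa using this
  exact Polynomial.not_isUnit_X h2

/-- There is a maximal ideal of `ffB K F {u}` containing `u`, for transcendental `u`. -/
theorem ffB_exists_maximal_mem {u : F} (h : Transcendental K u) :
    ∃ Q : Ideal (ffB K F ({u} : Set F)), Q.IsMaximal ∧
      (⟨u, self_mem_ffB u⟩ : ffB K F ({u} : Set F)) ∈ Q := by
  set uA : Algebra.adjoin K ({u} : Set F) := ⟨u, Algebra.self_mem_adjoin_singleton K u⟩ with huA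
  have hne : Ideal.span {uA} ≠ ⊤ := by
    rw [Ne, Ideal.span_singleton_eq_top]
    exact adjoin_gen_not_isUnit h
  obtain ⟨P, hP, hle⟩ := Ideal.exists_le_maximal _ hne
  haveI : Algebra.IsIntegral (Algebra.adjoin K ({u} : Set F))
      (integralClosure (Algebra.adjoin K ({u} : Set F)) F) := inferInstance
  have hinj : Function.Injective (algebraMap (Algebra.adjoin K ({u} : Set F))
      (integralClosure (Algebra.adjoin K ({u} : Set F)) F)) := by
    intro a b hab
    apply Subtype.ext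
    exact congrArg (fun z : integralClosure (Algebra.adjoin K ({u} : Set F)) F => (z : F)) hab
  obtain ⟨Q, hQ, hQP⟩ := Ideal.exists_ideal_over_maximal_of_isIntegral
    (S := integralClosure (Algebra.adjoin K ({u} : Set F)) F) P
    (by rw [(RingHom.injective_iff_ker_eq_bot _).mp hinj]; exact bot_le)
  refine ⟨Q, hQ, ?_⟩
  have hmem : uA ∈ Q.comap (algebraMap (Algebra.adjoin K ({u} : Set F))
      (integralClosure (Algebra.adjoin K ({u} : Set F)) F)) := by
    rw [hQP]
    exact hle (Ideal.mem_span_singleton_self uA)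
  exact hmem

/-- A `K`-point of `ffB K F {u}` at which `u` vanishes. -/
theorem ffB_exists_point [IsAlgClosed K] [Algebra.EssFiniteType K F] (h : Module.finrank F Ω[F⁄K] = 1) {u : F}
    (hu : KaehlerDifferential.D K F u ≠ 0) :
    ∃ e : ffB K F ({u} : Set F) →ₐ[K] K, e ⟨u, self_mem_ffB u⟩ = 0 := by
  obtain ⟨Q, hQ, hmem⟩ := ffB_exists_maximal_mem (ffsep_transcendental hu)
  haveI := ffB_finiteType h hu
  have hbij := ds_algebraMap_quotient_bijective K Q
  let ε : K ≃ₐ[K] (ffB K F ({u} : Set F) ⧸ Q) :=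
    AlgEquiv.ofBijective (Algebra.ofId K _) hbij
  refine ⟨ε.symm.toAlgHom.comp (Ideal.Quotient.mkₐ K Q), ?_⟩
  rw [AlgHom.comp_apply, Ideal.Quotient.mkₐ_eq_mk, Ideal.Quotient.eq_zero_iff_mem.mpr hmem]
  exact map_zero _

end Point

section Chart

open Fermat.Agent.S25

variable {K F : Type u} [Field K] [Field F] [Algebra K F]

/-- If `dx ≠ 0` then `x ≠ 0`. -/
theorem ne_zero_of_D_ne_zero {x : F} (hx : KaehlerDifferential.D K F x ≠ 0) : x ≠ 0 := by
  rintro rfl
  exact hx (map_zero _)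

/-- If `dx ≠ 0` then `d(x⁻¹) ≠ 0`. -/
theorem D_inv_ne_zero {x : F} (hx : KaehlerDifferential.D K F x ≠ 0) :
    KaehlerDifferential.D K F x⁻¹ ≠ 0 := by
  have hx0 := ne_zero_of_D_ne_zero hx
  intro h
  have h1 : KaehlerDifferential.D K F (x * x⁻¹) = 0 := by
    rw [mul_inv_cancel₀ hx0]
    exact Derivation.map_one_eq_zero _
  rw [Derivation.leibniz, h, smul_zero, zero_add] at h1
  rcases smul_eq_zero.mp h1 with h2 | h2
  · exact inv_ne_zero hx0 h2
  · exact hx h2

/-- The inclusion `ffB K F S → ffB K F T` for `S ⊆ T`, as an algebra structure. -/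
noncomputable abbrev ffBAlgebra {S T : Set F} (h : S ⊆ T) : Algebra (ffB K F S) (ffB K F T) :=
  (Subalgebra.inclusion (ffB_mono h)).toRingHom.toAlgebra

theorem ffBAlgebra_isScalarTower {S T : Set F} (h : S ⊆ T) :
    letI := ffBAlgebra (K := K) h
    IsScalarTower K (ffB K F S) (ffB K F T) :=
  letI := ffBAlgebra (K := K) h
  IsScalarTower.of_algebraMap_eq fun _ => rfl

theorem ffBAlgebra_coe {S T : Set F} (h : S ⊆ T) (b : ffB K F S) :
    letI := ffBAlgebra (K := K) h
    ((algebraMap (ffB K F S) (ffB K F T) b : ffB K F T) : F) = (b : F) := by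
  letI := ffBAlgebra (K := K) h
  rw [RingHom.algebraMap_toAlgebra]
  exact Subalgebra.coe_inclusion _ _

theorem ffBAlgebra_val {S T : Set F} (h : S ⊆ T) (b : ffB K F S) :
    (ffB K F T).val (@algebraMap _ _ _ _ (ffBAlgebra (K := K) h) b) = (ffB K F S).val b :=
  ffBAlgebra_coe (K := K) h b

theorem ffBAlgebra_injective {S T : Set F} (h : S ⊆ T) :
    letI := ffBAlgebra (K := K) h
    Function.Injective (algebraMap (ffB K F S) (ffB K F T)) :=
  Subalgebra.inclusion_injective (ffB_mono h)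

/-- `ffB K F {u, u⁻¹}` is the localisation of `ffB K F {u}` away from `u`. -/
theorem ffB_isLocalization_away {u : F} (hu : u ≠ 0) {T : Set F} (hT : T = {u, u⁻¹}) :
    letI := ffBAlgebra (K := K) (show ({u} : Set F) ⊆ T by rw [hT]; simp)
    IsLocalization.Away (⟨u, self_mem_ffB u⟩ : ffB K F ({u} : Set F)) (ffB K F T) := by
  subst hT
  letI := ffBAlgebra (K := K) (show ({u} : Set F) ⊆ {u, u⁻¹} by simp)
  refine isLocalization_away_of_injective (ffBAlgebra_injective _) _ ?_ ?_
  · have hinv : u⁻¹ ∈ ffB K F ({u, u⁻¹} : Set F) := subset_ffB _ (by simp)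
    refine IsUnit.of_mul_eq_one (⟨u⁻¹, hinv⟩ : ffB K F ({u, u⁻¹} : Set F)) ?_
    apply Subtype.ext
    change u * u⁻¹ = 1
    exact mul_inv_cancel₀ hu
  · rintro ⟨f, hf⟩
    obtain ⟨k, hk⟩ := ffB_pair_exists_pow_mul_mem hu hf
    refine ⟨k, ⟨u ^ k * f, hk⟩, ?_⟩
    apply Subtype.ext
    change f * u ^ k = u ^ k * f
    ring

variable [IsAlgClosed K] [Algebra.EssFiniteType K F]

/-- **FF-ALG, explicit form.**  The three integral closures form a curve chart. -/
theorem ffalg_isCurveChart (h : Module.finrank F Ω[F⁄K] = 1) {x : F}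
    (hx : KaehlerDifferential.D K F x ≠ 0) :
    ∃ e : ffB K F ({x⁻¹} : Set F) →ₐ[K] K,
      letI := ffBAlgebra (K := K) (show ({x} : Set F) ⊆ {x, x⁻¹} by simp)
      letI := ffBAlgebra (K := K) (show ({x⁻¹} : Set F) ⊆ {x, x⁻¹} by simp)
      haveI := ffBAlgebra_isScalarTower (K := K) (show ({x} : Set F) ⊆ {x, x⁻¹} by simp)
      haveI := ffBAlgebra_isScalarTower (K := K) (show ({x⁻¹} : Set F) ⊆ {x, x⁻¹} by simp)
      IsCurveChart K (ffB K F ({x} : Set F)) (ffB K F ({x⁻¹} : Set F))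
        (ffB K F ({x, x⁻¹} : Set F)) ⟨x, self_mem_ffB x⟩ ⟨x⁻¹, self_mem_ffB x⁻¹⟩ e := by
  have hx0 := ne_zero_of_D_ne_zero hx
  have hy := D_inv_ne_zero hx
  obtain ⟨e, he⟩ := ffB_exists_point h hy
  refine ⟨e, ?_⟩
  letI a₀ := ffBAlgebra (K := K) (show ({x} : Set F) ⊆ {x, x⁻¹} by simp)
  letI a₁ := ffBAlgebra (K := K) (show ({x⁻¹} : Set F) ⊆ {x, x⁻¹} by simp)
  haveI t₀ := ffBAlgebra_isScalarTower (K := K) (show ({x} : Set F) ⊆ {x, x⁻¹} by simp)
  haveI t₁ := ffBAlgebra_isScalarTower (K := K) (show ({x⁻¹} : Set F) ⊆ {x, x⁻¹} by simp)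
  haveI d₀ := ffB_isDedekindDomain h hx
  haveI d₁ := ffB_isDedekindDomain h hy
  haveI f₀ := ffB_finiteType h hx
  haveI f₁ := ffB_finiteType h hy
  exact
    { isDomain₀ := inferInstance
      isDomain₁ := inferInstance
      away₀ := ffB_isLocalization_away hx0 rfl
      away₁ := ffB_isLocalization_away (inv_ne_zero hx0) (by rw [inv_inv, Set.pair_comm])
      mul_eq_one := by
        apply Subtype.ext
        change x * x⁻¹ = 1
        exact mul_inv_cancel₀ hx0
      finite₀ := ffB_aeval_finite h hx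
      finite₁ := ffB_aeval_finite h hy
      smooth₀ := ds_smooth K _
      smooth₁ := ds_smooth K _
      omega₀ := ds_invertible_kaehlerDifferential K _ (ffB_not_isField hx)
      omega₁ := ds_invertible_kaehlerDifferential K _ (ffB_not_isField hy)
      e_y := he }

/-- **FF-ALG, neutral form.**  A function field of a curve over an algebraically closed field
has a curve chart `(B₀, B₁, B₀₁, x, y, e)` made of subrings of `F`, and `F` is the field of
fractions of `B₀`. -/
theorem ffalg_exists_chart (K F : Type u) [Field K] [Field F] [Algebra K F] [IsAlgClosed K]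
    [Algebra.EssFiniteType K F] (h : Module.finrank F Ω[F⁄K] = 1) :
    ∃ (B₀ B₁ B₀₁ : Type u) (_ : CommRing B₀) (_ : CommRing B₁) (_ : CommRing B₀₁)
      (_ : Algebra K B₀) (_ : Algebra K B₁) (_ : Algebra K B₀₁) (_ : Algebra B₀ B₀₁)
      (_ : Algebra B₁ B₀₁) (_ : IsScalarTower K B₀ B₀₁) (_ : IsScalarTower K B₁ B₀₁)
      (x : B₀) (y : B₁) (e : B₁ →ₐ[K] K) (j₀ : B₀ →ₐ[K] F) (j₁ : B₁ →ₐ[K] F)
      (j₀₁ : B₀₁ →ₐ[K] F),
      IsCurveChart K B₀ B₁ B₀₁ x y e ∧
      (∀ b : B₀, j₀₁ (algebraMap B₀ B₀₁ b) = j₀ b) ∧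
      (∀ b : B₁, j₀₁ (algebraMap B₁ B₀₁ b) = j₁ b) ∧
      Function.Injective j₀ ∧ Function.Injective j₁ ∧ Function.Injective j₀₁ ∧
      (∀ f : F, ∃ a b : B₀, b ≠ 0 ∧ f * j₀ b = j₀ a) ∧
      (∀ f : F, ∃ a b : B₁, b ≠ 0 ∧ f * j₁ b = j₁ a) := by
  obtain ⟨x, hx⟩ := ffsep_exists_D_ne_zero K F h
  have hy := D_inv_ne_zero hx
  obtain ⟨e, he⟩ := ffalg_isCurveChart h hx
  exact ⟨ffB K F ({x} : Set F), ffB K F ({x⁻¹} : Set F), ffB K F ({x, x⁻¹} : Set F),
    inferInstance, inferInstance, inferInstance, inferInstance, inferInstance, inferInstance,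
    ffBAlgebra (K := K) (show ({x} : Set F) ⊆ {x, x⁻¹} by simp),
    ffBAlgebra (K := K) (show ({x⁻¹} : Set F) ⊆ {x, x⁻¹} by simp),
    ffBAlgebra_isScalarTower (K := K) (show ({x} : Set F) ⊆ {x, x⁻¹} by simp),
    ffBAlgebra_isScalarTower (K := K) (show ({x⁻¹} : Set F) ⊆ {x, x⁻¹} by simp),
    ⟨x, self_mem_ffB x⟩, ⟨x⁻¹, self_mem_ffB x⁻¹⟩, e,
    (ffB K F ({x} : Set F)).val, (ffB K F ({x⁻¹} : Set F)).val,
    (ffB K F ({x, x⁻¹} : Set F)).val, he,
    fun b => ffBAlgebra_val (K := K) (show ({x} : Set F) ⊆ {x, x⁻¹} by simp) b,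
    fun b => ffBAlgebra_val (K := K) (show ({x⁻¹} : Set F) ⊆ {x, x⁻¹} by simp) b,
    Subtype.val_injective, Subtype.val_injective, Subtype.val_injective,
    fun f => ffB_frac h hx f, fun f => ffB_frac h hy f⟩

end Chart

end Fermat.Agent.S27.H443
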