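import Fermat.Agent.S27.H443.FFSep

/-!
# Row S27, leaf FF-ALG, step B: the integral closure of `K[u]` in `F`

For a set `S ⊆ F` we let `ffB K F S` be the integral closure of `K[S]` in `F`, as a
`K`-subalgebra of `F`.  If `Ω[F⁄K]` is one-dimensional, `K` is algebraically closed, `F / K` is
essentially of finite type and `du ≠ 0`, then `ffB K F {u}` is a Dedekind domain, not a field,
finite over `K[u]`, of finite type over `K`, with field of fractions `F`.

Mathlib only.  Author: helper443.
-/

set_option autoImplicit false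
set_option linter.style.haveILetI false

open Polynomial
open scoped IntermediateField.algebraAdjoinAdjoin

namespace Fermat.Agent.S27.H443

section Def

variable (K F : Type*) [Field K] [Field F] [Algebra K F]

/-- The integral closure of `K[S]` in `F`, as a `K`-subalgebra of `F`. -/
def ffB (S : Set F) : Subalgebra K F :=
  (integralClosure (Algebra.adjoin K S) F).restrictScalars K

variable {K F}

theorem mem_ffB {S : Set F} {f : F} : f ∈ ffB K F S ↔ IsIntegral (Algebra.adjoin K S) f :=
  Iff.rfl

theorem adjoin_le_ffB (S : Set F) : Algebra.adjoin K S ≤ ffB K F S := by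
  intro f hf
  rw [mem_ffB]
  exact isIntegral_algebraMap (R := Algebra.adjoin K S) (x := ⟨f, hf⟩)

theorem subset_ffB (S : Set F) : S ⊆ ffB K F S :=
  fun _ hf => adjoin_le_ffB S (Algebra.subset_adjoin hf)

theorem self_mem_ffB (u : F) : u ∈ ffB K F {u} := subset_ffB {u} rfl

theorem ffB_mono {S T : Set F} (h : S ⊆ T) : ffB K F S ≤ ffB K F T := by
  intro f hf
  rw [mem_ffB] at hf ⊢
  letI : Algebra (Algebra.adjoin K S) (Algebra.adjoin K T) :=
    (Subalgebra.inclusion (Algebra.adjoin_mono h)).toAlgebra
  haveI : IsScalarTower (Algebra.adjoin K S) (Algebra.adjoin K T) F :=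
    IsScalarTower.of_algebraMap_eq fun _ => rfl
  exact hf.tower_top

end Def

section Poly

variable {K F : Type*} [Field K] [Field F] [Algebra K F]

/-- `K[u] ≃ K[X]` for transcendental `u`. -/
noncomputable def adjoinEquivPoly {u : F} (h : Transcendental K u) :
    K[X] ≃ₐ[K] Algebra.adjoin K {u} :=
  (AlgEquiv.ofInjective (Polynomial.aeval (R := K) u) (transcendental_iff_injective.mp h)).trans
    (Subalgebra.equivOfEq _ _ (Algebra.adjoin_singleton_eq_range_aeval K u).symm)

theorem adjoinEquivPoly_coe {u : F} (h : Transcendental K u) (p : K[X]) :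
    ((adjoinEquivPoly h p : Algebra.adjoin K {u}) : F) = Polynomial.aeval u p := rfl

theorem adjoin_isPrincipalIdealRing {u : F} (h : Transcendental K u) :
    IsPrincipalIdealRing (Algebra.adjoin K {u}) :=
  IsPrincipalIdealRing.of_surjective (adjoinEquivPoly h).toRingEquiv (adjoinEquivPoly h).surjective

theorem adjoin_not_isField {u : F} (h : Transcendental K u) :
    ¬ IsField (Algebra.adjoin K {u}) := fun hf =>
  Polynomial.not_isField K ((adjoinEquivPoly h).toRingEquiv.toMulEquiv.isField hf)

end Poly

section Half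

variable {K F : Type*} [Field K] [Field F] [Algebra K F] [IsAlgClosed K]
  [Algebra.EssFiniteType K F]

/-- `ffB K F {u}` is a Dedekind domain. -/
theorem ffB_isDedekindDomain (h : Module.finrank F Ω[F⁄K] = 1) {u : F}
    (hu : KaehlerDifferential.D K F u ≠ 0) : IsDedekindDomain (ffB K F {u}) := by
  haveI := adjoin_isPrincipalIdealRing (ffsep_transcendental hu)
  haveI := ffsep_finite K F h hu
  haveI := ffsep_isSeparable K F h hu
  exact integralClosure.isDedekindDomain (Algebra.adjoin K {u}) (IntermediateField.adjoin K {u}) F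

/-- The integral closure of `K[u]` in `F` is a finite `K[u]`-module. -/
theorem ffB_finite_adjoin (h : Module.finrank F Ω[F⁄K] = 1) {u : F}
    (hu : KaehlerDifferential.D K F u ≠ 0) :
    Module.Finite (Algebra.adjoin K {u}) (integralClosure (Algebra.adjoin K {u}) F) := by
  haveI := adjoin_isPrincipalIdealRing (ffsep_transcendental hu)
  haveI := ffsep_finite K F h hu
  haveI := ffsep_isSeparable K F h hu
  exact IsIntegralClosure.finite (Algebra.adjoin K {u}) (IntermediateField.adjoin K {u}) F _

/-- `ffB K F {u}` is finite over `K[X]` via `X ↦ u`. -/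
theorem ffB_aeval_finite (h : Module.finrank F Ω[F⁄K] = 1) {u : F}
    (hu : KaehlerDifferential.D K F u ≠ 0) :
    (Polynomial.aeval (⟨u, self_mem_ffB u⟩ : ffB K F {u}) : K[X] →ₐ[K] ffB K F {u}).Finite := by
  have hfin := ffB_finite_adjoin h hu
  have htr := ffsep_transcendental hu
  let π : K[X] →+* Algebra.adjoin K {u} := (adjoinEquivPoly htr).toRingEquiv
  let ι : Algebra.adjoin K {u} →+* integralClosure (Algebra.adjoin K {u}) F :=
    algebraMap (Algebra.adjoin K {u}) (integralClosure (Algebra.adjoin K {u}) F)
  have hπ : π.Finite := RingHom.Finite.of_surjective π (adjoinEquivPoly htr).surjective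
  have hι : ι.Finite := RingHom.finite_algebraMap.mpr hfin
  have hfin' : (ι.comp π).Finite := hι.comp hπ
  have hcomp : (Polynomial.aeval (⟨u, self_mem_ffB u⟩ : ffB K F {u}) :
      K[X] →ₐ[K] ffB K F {u}).toRingHom = ι.comp π := by
    apply Polynomial.ringHom_ext
    · intro c
      apply Subtype.ext
      change ((Polynomial.aeval (⟨u, self_mem_ffB u⟩ : ffB K F {u}) (C c) : ffB K F {u}) : F) =
        ((adjoinEquivPoly htr (C c) : Algebra.adjoin K {u}) : F)
      rw [adjoinEquivPoly_coe, Polynomial.aeval_C, Polynomial.aeval_C]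
      rfl
    · apply Subtype.ext
      change ((Polynomial.aeval (⟨u, self_mem_ffB u⟩ : ffB K F {u}) X : ffB K F {u}) : F) =
        ((adjoinEquivPoly htr X : Algebra.adjoin K {u}) : F)
      rw [adjoinEquivPoly_coe, Polynomial.aeval_X, Polynomial.aeval_X]
  change (Polynomial.aeval (⟨u, self_mem_ffB u⟩ : ffB K F {u}) :
      K[X] →ₐ[K] ffB K F {u}).toRingHom.Finite
  rw [hcomp]
  exact hfin'

/-- `ffB K F {u}` is of finite type over `K`. -/
theorem ffB_finiteType (h : Module.finrank F Ω[F⁄K] = 1) {u : F}
    (hu : KaehlerDifferential.D K F u ≠ 0) : Algebra.FiniteType K (ffB K F {u}) := by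
  haveI hfin := ffB_finite_adjoin h hu
  have h1 : Algebra.FiniteType K (Algebra.adjoin K {u}) :=
    Algebra.FiniteType.equiv inferInstance (adjoinEquivPoly (ffsep_transcendental hu))
  have h2 : Algebra.FiniteType (Algebra.adjoin K {u})
      (integralClosure (Algebra.adjoin K {u}) F) := Module.Finite.finiteType _
  have h3 : Algebra.FiniteType K (integralClosure (Algebra.adjoin K {u}) F) :=
    Algebra.FiniteType.trans h1 h2
  exact h3

/-- `ffB K F {u}` is not a field. -/
theorem ffB_not_isField {K F : Type*} [Field K] [Field F] [Algebra K F] [IsAlgClosed K] {u : F}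
    (hu : KaehlerDifferential.D K F u ≠ 0) : ¬ IsField (ffB K F {u}) := by
  intro hf
  have hint : Algebra.IsIntegral (Algebra.adjoin K {u})
      (integralClosure (Algebra.adjoin K {u}) F) := inferInstance
  have hinj : Function.Injective (algebraMap (Algebra.adjoin K {u})
      (integralClosure (Algebra.adjoin K {u}) F)) := by
    intro a b hab
    apply Subtype.ext
    exact congrArg (fun z : integralClosure (Algebra.adjoin K {u}) F => (z : F)) hab
  exact adjoin_not_isField (ffsep_transcendental hu)
    (isField_of_isIntegral_of_isField hinj hf)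

omit [IsAlgClosed K] in
/-- `F` is the field of fractions of `ffB K F {u}`. -/
theorem ffB_frac (h : Module.finrank F Ω[F⁄K] = 1) {u : F}
    (hu : KaehlerDifferential.D K F u ≠ 0) (f : F) :
    ∃ a b : ffB K F {u}, b ≠ 0 ∧ f * (b : F) = (a : F) := by
  haveI := ffsep_finite K F h hu
  haveI : Algebra.IsAlgebraic (IntermediateField.adjoin K {u}) F := Algebra.IsAlgebraic.of_finite _ _
  haveI hloc := IsIntegralClosure.isLocalization (Algebra.adjoin K {u})
    (IntermediateField.adjoin K {u}) F (integralClosure (Algebra.adjoin K {u}) F)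
  obtain ⟨⟨a, s⟩, hs⟩ := IsLocalization.surj (Algebra.algebraMapSubmonoid
    (integralClosure (Algebra.adjoin K {u}) F) (nonZeroDivisors (Algebra.adjoin K {u}))) f
  refine ⟨a, s.1, ?_, hs⟩
  obtain ⟨_, c, hc, rfl⟩ := s
  intro h0
  have h1 : (algebraMap (Algebra.adjoin K {u}) (integralClosure (Algebra.adjoin K {u}) F) c : F)
      = 0 := congrArg (fun z : integralClosure (Algebra.adjoin K {u}) F => (z : F)) h0
  have h2 : c = 0 := Subtype.ext h1
  exact (mem_nonZeroDivisors_iff_ne_zero.mp hc) h2

end Half

end Fermat.Agent.S27.H443
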