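import Fermat.Agent.S27.H443.FFInt

/-!
# Row S27, leaf FF-ALG, step C: the intersection of the two charts

For `u ≠ 0` in `F`, the integral closure of `K[u, u⁻¹]` in `F` is the localisation away from `u`
of the integral closure of `K[u]`:  if `f` is integral over `K[u, u⁻¹]` then `u ^ k * f` is
integral over `K[u]` for some `k` (`ffB_pair_exists_pow_mul_mem`), whence
`ffB_isLocalization_away`.

Mathlib only.  Author: helper443.
-/

set_option autoImplicit false
set_option linter.style.haveILetI false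

open Polynomial

namespace Fermat.Agent.S27.H443

/-- A criterion for `IsLocalization.Away`, for an injective algebra map. -/
theorem isLocalization_away_of_injective {R S : Type*} [CommRing R] [CommRing S] [Algebra R S]
    (hinj : Function.Injective (algebraMap R S)) (x : R) (hx : IsUnit (algebraMap R S x))
    (hsurj : ∀ s : S, ∃ (k : ℕ) (r : R), s * algebraMap R S x ^ k = algebraMap R S r) :
    IsLocalization.Away x S := by
  rw [IsLocalization.Away, isLocalization_iff]
  refine ⟨?_, ?_, ?_⟩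
  · rintro ⟨_, k, rfl⟩
    rw [map_pow]
    exact hx.pow k
  · intro s
    obtain ⟨k, r, h⟩ := hsurj s
    exact ⟨(r, ⟨x ^ k, k, rfl⟩), by rw [map_pow]; exact h⟩
  · intro a b h
    exact ⟨1, by rw [hinj h]⟩

section Pair

variable {K F : Type*} [Field K] [Field F] [Algebra K F]

/-- Every element of `K[u, u⁻¹]` becomes an element of `K[u]` after multiplication by a power of
`u`. -/
theorem adjoin_pair_exists_pow_mul_mem {u : F} (hu : u ≠ 0) {a : F}
    (ha : a ∈ Algebra.adjoin K ({u, u⁻¹} : Set F)) :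
    ∃ k : ℕ, u ^ k * a ∈ Algebra.adjoin K ({u} : Set F) := by
  induction ha using Algebra.adjoin_induction with
  | mem x hx =>
    rcases hx with rfl | hx
    · exact ⟨0, by simp [Algebra.self_mem_adjoin_singleton K x]⟩
    · rw [Set.mem_singleton_iff] at hx
      subst hx
      exact ⟨1, by rw [pow_one, mul_inv_cancel₀ hu]; exact one_mem _⟩
  | algebraMap r => exact ⟨0, by simp⟩
  | add x y _ _ hx hy =>
    obtain ⟨k, hk⟩ := hx
    obtain ⟨l, hl⟩ := hy
    refine ⟨k + l, ?_⟩
    have hupow : ∀ n : ℕ, u ^ n ∈ Algebra.adjoin K ({u} : Set F) := fun n =>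
      Subalgebra.pow_mem _ (Algebra.self_mem_adjoin_singleton K u) n
    have : u ^ (k + l) * (x + y) = u ^ l * (u ^ k * x) + u ^ k * (u ^ l * y) := by ring
    rw [this]
    exact add_mem (mul_mem (hupow l) hk) (mul_mem (hupow k) hl)
  | mul x y _ _ hx hy =>
    obtain ⟨k, hk⟩ := hx
    obtain ⟨l, hl⟩ := hy
    refine ⟨k + l, ?_⟩
    have : u ^ (k + l) * (x * y) = (u ^ k * x) * (u ^ l * y) := by ring
    rw [this]
    exact mul_mem hk hl

/-- **Key lemma**: if `f` is integral over `K[u, u⁻¹]`, then `u ^ k * f` is integral over `K[u]`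
for some `k`. -/
theorem ffB_pair_exists_pow_mul_mem {u : F} (hu : u ≠ 0) {f : F}
    (hf : f ∈ ffB K F ({u, u⁻¹} : Set F)) : ∃ k : ℕ, u ^ k * f ∈ ffB K F ({u} : Set F) := by
  rw [mem_ffB] at hf
  have hle : Algebra.adjoin K ({u} : Set F) ≤ Algebra.adjoin K ({u, u⁻¹} : Set F) :=
    Algebra.adjoin_mono (by simp)
  letI alg : Algebra (Algebra.adjoin K ({u} : Set F)) (Algebra.adjoin K ({u, u⁻¹} : Set F)) :=
    (Subalgebra.inclusion hle).toRingHom.toAlgebra
  haveI tower : IsScalarTower (Algebra.adjoin K ({u} : Set F))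
      (Algebra.adjoin K ({u, u⁻¹} : Set F)) F := IsScalarTower.of_algebraMap_eq fun _ => rfl
  let uA : Algebra.adjoin K ({u} : Set F) := ⟨u, Algebra.self_mem_adjoin_singleton K u⟩
  have hinvmem : u⁻¹ ∈ Algebra.adjoin K ({u, u⁻¹} : Set F) :=
    Algebra.subset_adjoin (by simp)
  haveI hloc : IsLocalization.Away uA (Algebra.adjoin K ({u, u⁻¹} : Set F)) := by
    refine isLocalization_away_of_injective (Subalgebra.inclusion_injective hle) uA ?_ ?_
    · refine IsUnit.of_mul_eq_one (⟨u⁻¹, hinvmem⟩ : Algebra.adjoin K ({u, u⁻¹} : Set F)) ?_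
      apply Subtype.ext
      change u * u⁻¹ = 1
      exact mul_inv_cancel₀ hu
    · rintro ⟨a, ha⟩
      obtain ⟨k, hk⟩ := adjoin_pair_exists_pow_mul_mem hu ha
      refine ⟨k, ⟨u ^ k * a, hk⟩, ?_⟩
      apply Subtype.ext
      change a * u ^ k = u ^ k * a
      ring
  obtain ⟨⟨m, k, rfl⟩, hm⟩ := IsIntegral.exists_multiple_integral_of_isLocalization
    (Submonoid.powers uA) f hf
  refine ⟨k, ?_⟩
  rw [mem_ffB]
  have : u ^ k * f = (⟨uA ^ k, k, rfl⟩ : Submonoid.powers uA) • f := by
    rw [Submonoid.smul_def, Algebra.smul_def]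
    rfl
  rw [this]
  exact hm

end Pair

end Fermat.Agent.S27.H443
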