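import Mathlib

/-!
# Row S27, leaf FF-ALG, step A: a separating variable

Let `F / K` be a field extension, essentially of finite type, with `K` algebraically closed and
`Ω[F⁄K]` of dimension one.  If `x ∈ F` has `dx ≠ 0`, then

* `x` is transcendental over `K` (`ffsep_transcendental`);
* `F` is formally unramified over `K[x]` (`ffsep_formallyUnramified_adjoin`), hence finite and
  separable over `K(x)` (`ffsep_finite`, `ffsep_isSeparable`).

Such an `x` exists (`ffsep_exists_D_ne_zero`).  No assumption on the characteristic.
Mathlib only.  Author: helper443.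
-/

set_option autoImplicit false
set_option linter.style.haveILetI false

open scoped IntermediateField.algebraAdjoinAdjoin

namespace Fermat.Agent.S27.H443

section

variable (K F : Type*) [Field K] [Field F] [Algebra K F]

/-- If `Ω[F⁄K]` is nonzero, some element has a nonzero differential. -/
theorem ffsep_exists_D_ne_zero (h : Module.finrank F Ω[F⁄K] = 1) :
    ∃ x : F, KaehlerDifferential.D K F x ≠ 0 := by
  by_contra hcon
  push Not at hcon
  have htop : (⊤ : Submodule F Ω[F⁄K]) = ⊥ := by
    rw [← KaehlerDifferential.span_range_derivation, Submodule.span_eq_bot]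
    rintro _ ⟨x, rfl⟩
    exact hcon x
  have hsub : Subsingleton Ω[F⁄K] :=
    (Submodule.subsingleton_iff F).mp (subsingleton_of_bot_eq_top htop.symm)
  have h0 : Module.finrank F Ω[F⁄K] = 0 := Module.finrank_zero_of_subsingleton
  omega

variable {K F}

/-- Over an algebraically closed field, an element with nonzero differential is
transcendental. -/
theorem ffsep_transcendental [IsAlgClosed K] {x : F} (hx : KaehlerDifferential.D K F x ≠ 0) :
    Transcendental K x := by
  intro halg
  have hint : IsIntegral K x := halg.isIntegral
  have hdeg : (minpoly K x).degree = 1 :=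
    IsAlgClosed.degree_eq_one_of_irreducible K (minpoly.irreducible hint)
  obtain ⟨c, rfl⟩ := minpoly.mem_range_of_degree_eq_one K x hdeg
  exact hx (Derivation.map_algebraMap _ c)

/-- If `Ω[F⁄K]` is one-dimensional and `dx ≠ 0`, then `F` is formally unramified over `K[x]`. -/
theorem ffsep_formallyUnramified_adjoin (h : Module.finrank F Ω[F⁄K] = 1) {x : F}
    (hx : KaehlerDifferential.D K F x ≠ 0) :
    Algebra.FormallyUnramified (Algebra.adjoin K {x}) F := by
  rw [Algebra.formallyUnramified_iff]
  set A := Algebra.adjoin K {x} with hA
  refine subsingleton_of_forall_eq 0 fun ω => ?_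
  obtain ⟨ω', rfl⟩ := KaehlerDifferential.map_surjective K A F ω
  obtain ⟨c, rfl⟩ := (finrank_eq_one_iff_of_nonzero' _ hx).mp h ω'
  have hxA : x ∈ A := Algebra.self_mem_adjoin_singleton K x
  have h1 : KaehlerDifferential.map K A F F (KaehlerDifferential.D K F x) = 0 := by
    rw [KaehlerDifferential.map_D, Algebra.algebraMap_self, RingHom.id_apply]
    exact Derivation.map_algebraMap (KaehlerDifferential.D A F) ⟨x, hxA⟩
  rw [map_smul, h1, smul_zero]

variable (K F)

/-- The extension `F / K(x)` is finite, if `dx ≠ 0`. -/
theorem ffsep_finite [Algebra.EssFiniteType K F] (h : Module.finrank F Ω[F⁄K] = 1) {x : F}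
    (hx : KaehlerDifferential.D K F x ≠ 0) :
    Module.Finite (IntermediateField.adjoin K {x}) F := by
  haveI := ffsep_formallyUnramified_adjoin h hx
  haveI : Algebra.FormallyUnramified (IntermediateField.adjoin K {x}) F :=
    Algebra.FormallyUnramified.of_restrictScalars (Algebra.adjoin K {x}) _ F
  haveI : Algebra.EssFiniteType (IntermediateField.adjoin K {x}) F :=
    Algebra.EssFiniteType.of_comp K _ F
  exact Algebra.FormallyUnramified.finite_of_free _ _

/-- The extension `F / K(x)` is separable, if `dx ≠ 0`. -/
theorem ffsep_isSeparable [Algebra.EssFiniteType K F] (h : Module.finrank F Ω[F⁄K] = 1) {x : F}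
    (hx : KaehlerDifferential.D K F x ≠ 0) :
    Algebra.IsSeparable (IntermediateField.adjoin K {x}) F := by
  haveI := ffsep_formallyUnramified_adjoin h hx
  haveI : Algebra.FormallyUnramified (IntermediateField.adjoin K {x}) F :=
    Algebra.FormallyUnramified.of_restrictScalars (Algebra.adjoin K {x}) _ F
  haveI : Algebra.EssFiniteType (IntermediateField.adjoin K {x}) F :=
    Algebra.EssFiniteType.of_comp K _ F
  exact Algebra.FormallyUnramified.isSeparable _ _

end

end Fermat.Agent.S27.H443
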